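import Fermat.Agent.LT.T6.H162.CptGCore

/-!
# Row LT, tower T6, leaf T6.18i.6g `ShiftBackC385` (helper355): auxiliary lemmas

OFF-MAIN.  Mathlib + `LT/T6/Spec.lean` (helper22) + `LT/T6/H162/CptGCore.lean` (helper162),
byte-identical copies.  Valuation estimates for `2 × 2` matrices over a field with a valuation
in `ℤᵐ⁰`.
-/

set_option autoImplicit false

open scoped Matrix

noncomputable section

namespace Fermat.Agent.LT.T6.H355

open Fermat.Agent.LT.T6 Fermat.Agent.LT.T6.H162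

/-! ## Algebra -/

/-- Cayley–Hamilton for `2 × 2` matrices. -/
theorem cayley355 {R : Type} [CommRing R] (A : Matrix (Fin 2) (Fin 2) R) :
    A * A = A.trace • A - A.det • (1 : Matrix (Fin 2) (Fin 2) R) := by
  ext i j
  fin_cases i <;> fin_cases j <;>
    simp [Matrix.mul_apply, Fin.sum_univ_two, Matrix.trace_fin_two, Matrix.det_fin_two] <;> ring

variable {k : Type} [Field k] [Valued k Γ₀]

/-! ## Bounds in `ℤᵐ⁰` -/

theorem exists_nat_ge355 (γ : Γ₀) : ∃ A : ℕ, γ ≤ WithZero.exp ((A : ℕ) : ℤ) := by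
  rcases eq_or_ne γ 0 with rfl | hγ
  · exact ⟨0, zero_le⟩
  · refine ⟨(WithZero.log γ).toNat, ?_⟩
    rw [← WithZero.exp_log hγ, WithZero.exp_le_exp, WithZero.log_exp]
    exact Int.self_le_toNat _

theorem exists_nat_le355 {γ : Γ₀} (hγ : γ ≠ 0) : ∃ A : ℕ, WithZero.exp (-((A : ℕ) : ℤ)) ≤ γ := by
  refine ⟨(-WithZero.log γ).toNat, ?_⟩
  rw [← WithZero.exp_log hγ, WithZero.exp_le_exp, WithZero.log_exp]
  have := Int.self_le_toNat (-WithZero.log γ)
  omega

theorem val_det_ne_zero355 (g : GL (Fin 2) k) :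
    Valued.v (g : Matrix (Fin 2) (Fin 2) k).det ≠ 0 := by
  rw [Ne, Valuation.zero_iff]
  intro h0
  have h1 : (g : Matrix (Fin 2) (Fin 2) k).det * ((g⁻¹ : GL (Fin 2) k) :
      Matrix (Fin 2) (Fin 2) k).det = 1 := by
    rw [← Matrix.det_mul, ← Units.val_mul, mul_inv_cancel, Units.val_one, Matrix.det_one]
  rw [h0, zero_mul] at h1
  exact zero_ne_one h1

/-- a finite subset of `GL₂(k)` is bounded -/
theorem exists_bound355 (F : Finset (GL (Fin 2) k)) :
    ∃ B : ℕ, ∀ f ∈ F, entryMax f ≤ WithZero.exp ((B : ℕ) : ℤ) ∧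
      WithZero.exp (-((B : ℕ) : ℤ)) ≤ Valued.v (f : Matrix (Fin 2) (Fin 2) k).det := by
  classical
  induction F using Finset.induction_on with
  | empty => exact ⟨0, fun f hf => absurd hf (Finset.notMem_empty f)⟩
  | insert a F _ ih =>
    obtain ⟨B, hB⟩ := ih
    obtain ⟨A₁, hA₁⟩ := exists_nat_ge355 (entryMax a)
    obtain ⟨A₂, hA₂⟩ := exists_nat_le355 (val_det_ne_zero355 a)
    refine ⟨max B (max A₁ A₂), fun f hf => ?_⟩
    have hmono : ∀ {m n : ℕ}, m ≤ n →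
        WithZero.exp ((m : ℕ) : ℤ) ≤ WithZero.exp ((n : ℕ) : ℤ) := by
      intro m n h
      rw [WithZero.exp_le_exp]
      exact_mod_cast h
    have hanti : ∀ {m n : ℕ}, m ≤ n →
        WithZero.exp (-((n : ℕ) : ℤ)) ≤ WithZero.exp (-((m : ℕ) : ℤ)) := by
      intro m n h
      rw [WithZero.exp_le_exp]
      have : (m : ℤ) ≤ n := by exact_mod_cast h
      omega
    rcases Finset.mem_insert.1 hf with rfl | hf'
    · exact ⟨hA₁.trans (hmono (le_trans (le_max_left _ _) (le_max_right _ _))),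
        (hanti (le_trans (le_max_right _ _) (le_max_right _ _))).trans hA₂⟩
    · exact ⟨(hB f hf').1.trans (hmono (le_max_left _ _)),
        (hanti (le_max_left _ _)).trans (hB f hf').2⟩

theorem entryMax_le355 (g : GL (Fin 2) k) {c : Γ₀}
    (h : ∀ i j, Valued.v ((g : Matrix (Fin 2) (Fin 2) k) i j) ≤ c) : entryMax g ≤ c :=
  Finset.sup'_le _ _ (fun p _ => h p.1 p.2)

/-! ## Elements of `U(n)` -/

theorem val_one_apply_le355 (i j : Fin 2) :
    Valued.v ((1 : Matrix (Fin 2) (Fin 2) k) i j) ≤ 1 := by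
  by_cases hij : i = j
  · rw [hij, Matrix.one_apply_eq, map_one]
  · rw [Matrix.one_apply_ne hij, map_zero]
    exact zero_le_one

theorem exp_neg_nat_le_one355 (n : ℕ) : WithZero.exp (-((n : ℕ) : ℤ)) ≤ (1 : Γ₀) := by
  rw [← WithZero.exp_zero, WithZero.exp_le_exp]
  omega

theorem val_entry_le_one_of_inU355 {n : ℕ} {u : GL (Fin 2) k} (hu : InU n u) (i j : Fin 2) :
    Valued.v ((u : Matrix (Fin 2) (Fin 2) k) i j) ≤ 1 := by
  have h1 := (hu i j).1
  have e : (u : Matrix (Fin 2) (Fin 2) k) i j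
      = ((u : Matrix (Fin 2) (Fin 2) k) i j - (1 : Matrix (Fin 2) (Fin 2) k) i j)
        + (1 : Matrix (Fin 2) (Fin 2) k) i j := by ring
  rw [e]
  exact (Valuation.map_add _ _ _).trans
    (max_le (h1.trans (exp_neg_nat_le_one355 n)) (val_one_apply_le355 i j))

theorem val_inv_entry_le_one_of_inU355 {n : ℕ} {u : GL (Fin 2) k} (hu : InU n u) (i j : Fin 2) :
    Valued.v (((u⁻¹ : GL (Fin 2) k) : Matrix (Fin 2) (Fin 2) k) i j) ≤ 1 := by
  have h1 := (hu i j).2
  have e : ((u⁻¹ : GL (Fin 2) k) : Matrix (Fin 2) (Fin 2) k) i j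
      = (((u⁻¹ : GL (Fin 2) k) : Matrix (Fin 2) (Fin 2) k) i j
          - (1 : Matrix (Fin 2) (Fin 2) k) i j)
        + (1 : Matrix (Fin 2) (Fin 2) k) i j := by ring
  rw [e]
  exact (Valuation.map_add _ _ _).trans
    (max_le (h1.trans (exp_neg_nat_le_one355 n)) (val_one_apply_le355 i j))

theorem val_det_le_one355 (A : Matrix (Fin 2) (Fin 2) k)
    (h : ∀ i j, Valued.v (A i j) ≤ 1) : Valued.v A.det ≤ 1 := by
  rw [Matrix.det_fin_two]
  refine (Valuation.map_sub _ _ _).trans (max_le ?_ ?_)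
  · rw [map_mul]
    exact mul_le_one' (h 0 0) (h 1 1)
  · rw [map_mul]
    exact mul_le_one' (h 0 1) (h 1 0)

theorem val_det_eq_one_of_inU355 {n : ℕ} {u : GL (Fin 2) k} (hu : InU n u) :
    Valued.v (u : Matrix (Fin 2) (Fin 2) k).det = 1 := by
  have h1 : Valued.v (u : Matrix (Fin 2) (Fin 2) k).det ≤ 1 :=
    val_det_le_one355 _ (val_entry_le_one_of_inU355 hu)
  have h2 : Valued.v ((u⁻¹ : GL (Fin 2) k) : Matrix (Fin 2) (Fin 2) k).det ≤ 1 :=
    val_det_le_one355 _ (val_inv_entry_le_one_of_inU355 hu)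
  have h3 : Valued.v (u : Matrix (Fin 2) (Fin 2) k).det *
      Valued.v ((u⁻¹ : GL (Fin 2) k) : Matrix (Fin 2) (Fin 2) k).det = 1 := by
    rw [← map_mul, ← Matrix.det_mul, ← Units.val_mul, mul_inv_cancel, Units.val_one,
      Matrix.det_one, map_one]
  refine le_antisymm h1 ?_
  by_contra hlt
  rw [not_le] at hlt
  have h0 : Valued.v ((u⁻¹ : GL (Fin 2) k) : Matrix (Fin 2) (Fin 2) k).det ≠ 0 :=
    val_det_ne_zero355 u⁻¹
  have h4 : Valued.v (u : Matrix (Fin 2) (Fin 2) k).det *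
      Valued.v ((u⁻¹ : GL (Fin 2) k) : Matrix (Fin 2) (Fin 2) k).det < 1 :=
    calc Valued.v (u : Matrix (Fin 2) (Fin 2) k).det *
          Valued.v ((u⁻¹ : GL (Fin 2) k) : Matrix (Fin 2) (Fin 2) k).det
        < 1 * Valued.v ((u⁻¹ : GL (Fin 2) k) : Matrix (Fin 2) (Fin 2) k).det :=
          mul_lt_mul_of_pos_right hlt (zero_lt_iff.2 h0)
      _ = Valued.v ((u⁻¹ : GL (Fin 2) k) : Matrix (Fin 2) (Fin 2) k).det := one_mul _
      _ ≤ 1 := h2
  rw [h3] at h4
  exact lt_irrefl _ h4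

/-- the trace of an element of `U(M)` is `2` up to `exp (-M)` -/
theorem val_trace_sub_two355 {M : ℕ} {w : GL (Fin 2) k} (hw : InU M w) :
    Valued.v ((w : Matrix (Fin 2) (Fin 2) k).trace - 2) ≤ WithZero.exp (-((M : ℕ) : ℤ)) := by
  have h0 := (hw 0 0).1
  have h1 := (hw 1 1).1
  rw [Matrix.one_apply_eq] at h0 h1
  have e : (w : Matrix (Fin 2) (Fin 2) k).trace - 2
      = ((w : Matrix (Fin 2) (Fin 2) k) 0 0 - 1) + ((w : Matrix (Fin 2) (Fin 2) k) 1 1 - 1) := by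
    rw [Matrix.trace_fin_two]
    ring
  rw [e]
  exact (Valuation.map_add _ _ _).trans (max_le h0 h1)

end Fermat.Agent.LT.T6.H355

end
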