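import Fermat.Agent.LT.T6.H385.DescSpec
import Fermat.Agent.LT.T6.H355.ShiftBackAux

/-!
# Row LT, tower T6, leaf T6.18i.6g (helper355): `shiftBackC355 : H385.ShiftBackC385`

OFF-MAIN.  The frozen Prop of `LT/T6/H385/DescSpec.lean` (helper385@51fcfaf6f, sha256 ef4c48b7),
unconditional.

`g = x⁻¹ (w δ₀) σ(x)`, `g₀ = x⁻¹ δ₀ σ(x)`, `w_x = x⁻¹ w x`: `g = w_x g₀` and
`g σ(g) = z · w_x²` (`δ₀ σ(w) = w δ₀`, `σ(δ₀) = δ₀`, `δ₀² = z`, `σ² = 1`).  Cayley–Hamilton:
`w_x² = t w_x - d`, `t = tr w`, `d = det w`, so `t · w_x = z⁻¹ g σ(g) + d`; `|t| = |2|` for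
`w ∈ U(M₂)`, `exp(-M₂) < |2|`.  Hence `w_x`, `w_x⁻¹` and `g₀ = w_x⁻¹ g` are bounded on `F U(n)`,
`|det g₀| = |det g|`, and the bounded set is covered by finitely many cosets of `U(n)`
(`cptG_core162`, helper162).
-/

set_option autoImplicit false

open scoped Matrix

noncomputable section

namespace Fermat.Agent.LT.T6.H355

open Fermat.Agent.LT.T6 Fermat.Agent.LT.T6.H162 Fermat.Agent.LT.T6.H385

variable {k : Type} [Field k]

theorem val_glAut355 (s : k ≃+* k) (g : GL (Fin 2) k) (i j : Fin 2) :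
    ((glAut s g : GL (Fin 2) k) : Matrix (Fin 2) (Fin 2) k) i j
      = s ((g : Matrix (Fin 2) (Fin 2) k) i j) := rfl

theorem glAut_glAut355 (s : k ≃+* k) (hs2 : ∀ y : k, s (s y) = y) (g : GL (Fin 2) k) :
    glAut s (glAut s g) = g := by
  apply Units.ext
  ext i j
  rw [val_glAut355, val_glAut355, hs2]

/-- the group identity `g σ(g) = w_x w_x (x⁻¹ δ₀² x)` -/
theorem key_group355 (s : k ≃+* k) (hs2 : ∀ y : k, s (s y) = y) (δ₀ w x : GL (Fin 2) k)
    (hδ : glAut s δ₀ = δ₀) (hw : InTwCent s δ₀ w) :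
    (x⁻¹ * (w * δ₀) * glAut s x) * glAut s (x⁻¹ * (w * δ₀) * glAut s x)
      = (x⁻¹ * w * x) * (x⁻¹ * w * x) * (x⁻¹ * (δ₀ * δ₀) * x) := by
  have hw' : δ₀ * glAut s w = w * δ₀ := by
    have h1 : w⁻¹ * δ₀ * glAut s w = δ₀ := hw
    calc δ₀ * glAut s w = w * (w⁻¹ * δ₀ * glAut s w) := by group
      _ = w * δ₀ := by rw [h1]
  rw [map_mul, map_mul, map_mul, map_inv, glAut_glAut355 s hs2, hδ]
  calc x⁻¹ * (w * δ₀) * glAut s x * ((glAut s x)⁻¹ * (glAut s w * δ₀) * x)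
      = x⁻¹ * w * (δ₀ * glAut s w) * δ₀ * x := by group
    _ = x⁻¹ * w * (w * δ₀) * δ₀ * x := by rw [hw']
    _ = (x⁻¹ * w * x) * (x⁻¹ * w * x) * (x⁻¹ * (δ₀ * δ₀) * x) := by group

theorem val_conj_scalar355 (x c : GL (Fin 2) k) (z : k)
    (hc : (c : Matrix (Fin 2) (Fin 2) k) = z • (1 : Matrix (Fin 2) (Fin 2) k)) :
    ((x⁻¹ * c * x : GL (Fin 2) k) : Matrix (Fin 2) (Fin 2) k)
      = z • (1 : Matrix (Fin 2) (Fin 2) k) := by
  rw [Units.val_mul, Units.val_mul, hc, Matrix.mul_smul, mul_one, Matrix.smul_mul,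
    ← Units.val_mul, inv_mul_cancel, Units.val_one]

theorem quatBase_sq355 (δ₀ : GL (Fin 2) k) (z : k)
    (hδ : (δ₀ : Matrix (Fin 2) (Fin 2) k) = !![0, z; 1, 0]) :
    ((δ₀ * δ₀ : GL (Fin 2) k) : Matrix (Fin 2) (Fin 2) k)
      = z • (1 : Matrix (Fin 2) (Fin 2) k) := by
  rw [Units.val_mul, hδ]
  ext i j
  fin_cases i <;> fin_cases j <;> simp [Matrix.mul_apply, Fin.sum_univ_two]

theorem quatBase_fixed355 (s : k ≃+* k) (δ₀ : GL (Fin 2) k) (z : k) (hz : s z = z)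
    (hδ : (δ₀ : Matrix (Fin 2) (Fin 2) k) = !![0, z; 1, 0]) : glAut s δ₀ = δ₀ := by
  apply Units.ext
  ext i j
  rw [val_glAut355, hδ]
  fin_cases i <;> fin_cases j <;> simp [hz]

theorem trace_conj355 (x w : GL (Fin 2) k) :
    ((x⁻¹ * w * x : GL (Fin 2) k) : Matrix (Fin 2) (Fin 2) k).trace
      = (w : Matrix (Fin 2) (Fin 2) k).trace := by
  rw [Units.val_mul, Matrix.trace_mul_comm, ← Units.val_mul, mul_inv_cancel_left]

theorem det_conj355 (x w : GL (Fin 2) k) :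
    ((x⁻¹ * w * x : GL (Fin 2) k) : Matrix (Fin 2) (Fin 2) k).det
      = (w : Matrix (Fin 2) (Fin 2) k).det := by
  rw [Units.val_mul, Matrix.det_mul, mul_comm, ← Matrix.det_mul, ← Units.val_mul,
    mul_inv_cancel_left]

variable [Valued k Γ₀]

/-- **The core**: the hypotheses on the field in explicit form. -/
theorem shiftBack_core355 {q : ℕ} (hk : IsLocalField k q) (s : k ≃+* k)
    (hs2 : ∀ y : k, s (s y) = y) (hsv : ∀ y : k, Valued.v (s y) = Valued.v y)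
    (z : k) (hz0 : z ≠ 0) (hsz : s z = z) (n : ℕ) (δ₀ : GL (Fin 2) k)
    (hδ : (δ₀ : Matrix (Fin 2) (Fin 2) k) = !![0, z; 1, 0]) (F : Finset (GL (Fin 2) k)) :
    ∃ (M₂ : ℕ) (F'' : Finset (GL (Fin 2) k)),
      ∀ w x : GL (Fin 2) k, InTwCent s δ₀ w → InU M₂ w →
        InCosets385 n F (x⁻¹ * (w * δ₀) * glAut s x) →
        InCosets385 n F'' (x⁻¹ * δ₀ * glAut s x) := by
  have : CharZero k := hk.char0
  obtain ⟨B, hB⟩ := exists_bound355 F
  have hvz : Valued.v z ≠ 0 := by rwa [Ne, Valuation.zero_iff]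
  have h20 : (2 : k) ≠ 0 := two_ne_zero
  have hv2 : Valued.v (2 : k) ≠ 0 := by rwa [Ne, Valuation.zero_iff]
  obtain ⟨Az, hAz⟩ := exists_nat_le355 hvz
  obtain ⟨A2, hA2⟩ := exists_nat_le355 hv2
  obtain ⟨F'', -, hF''⟩ := cptG_core162 hk (((2 * (2 * B + Az + A2) + B : ℕ) : ℕ) : ℤ) n
  refine ⟨A2 + 1, F'', ?_⟩
  rintro w x hw hwU ⟨f, hf, u, hu, hg⟩
  -- (a) the entries and the determinant of `g`
  have hGe : ∀ i j, Valued.v (((x⁻¹ * (w * δ₀) * glAut s x : GL (Fin 2) k) :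
      Matrix (Fin 2) (Fin 2) k) i j) ≤ WithZero.exp ((B : ℕ) : ℤ) := by
    intro i j
    rw [hg, Units.val_mul]
    have h1 := val_mul_entry_le162 (f : Matrix (Fin 2) (Fin 2) k)
      (u : Matrix (Fin 2) (Fin 2) k) (a := WithZero.exp ((B : ℕ) : ℤ)) (c := 1)
      (fun i j => (val_entry_le_entryMax162 f i j).trans (hB f hf).1)
      (fun i j => val_entry_le_one_of_inU355 hu i j) i j
    rwa [mul_one] at h1
  have hGd : WithZero.exp (-((B : ℕ) : ℤ))
      ≤ Valued.v ((x⁻¹ * (w * δ₀) * glAut s x : GL (Fin 2) k) :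
        Matrix (Fin 2) (Fin 2) k).det := by
    rw [hg, Units.val_mul, Matrix.det_mul, map_mul, val_det_eq_one_of_inU355 hu, mul_one]
    exact (hB f hf).2
  -- (b) the key identity
  have hkey := key_group355 s hs2 δ₀ w x (quatBase_fixed355 s δ₀ z hsz hδ) hw
  have hkeyM : ((x⁻¹ * (w * δ₀) * glAut s x * glAut s (x⁻¹ * (w * δ₀) * glAut s x) :
      GL (Fin 2) k) : Matrix (Fin 2) (Fin 2) k)
      = ((x⁻¹ * w * x * (x⁻¹ * w * x) * (x⁻¹ * (δ₀ * δ₀) * x) : GL (Fin 2) k) :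
        Matrix (Fin 2) (Fin 2) k) := congrArg Units.val hkey
  rw [Units.val_mul ((x⁻¹ * w * x) * (x⁻¹ * w * x)),
    val_conj_scalar355 x (δ₀ * δ₀) z (quatBase_sq355 δ₀ z hδ), Matrix.mul_smul, mul_one,
    Units.val_mul (x⁻¹ * w * x), cayley355, trace_conj355, det_conj355] at hkeyM
  -- (c) the entries of `w_x`
  have hGG : ∀ i j, Valued.v (((x⁻¹ * (w * δ₀) * glAut s x *
      glAut s (x⁻¹ * (w * δ₀) * glAut s x) : GL (Fin 2) k) : Matrix (Fin 2) (Fin 2) k) i j)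
      ≤ WithZero.exp ((B : ℕ) : ℤ) * WithZero.exp ((B : ℕ) : ℤ) := by
    intro i j
    rw [Units.val_mul]
    exact val_mul_entry_le162 _ _ hGe
      (fun i j => by rw [val_glAut355, hsv]; exact hGe i j) i j
  have htr : Valued.v (w : Matrix (Fin 2) (Fin 2) k).trace = Valued.v (2 : k) := by
    have h1 := val_trace_sub_two355 hwU
    have h2 : Valued.v ((w : Matrix (Fin 2) (Fin 2) k).trace - 2) < Valued.v (2 : k) := by
      refine lt_of_le_of_lt h1 (lt_of_lt_of_le ?_ hA2)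
      rw [WithZero.exp_lt_exp]
      push_cast
      omega
    have e : (w : Matrix (Fin 2) (Fin 2) k).trace
        = 2 + ((w : Matrix (Fin 2) (Fin 2) k).trace - 2) := by ring
    rw [e]
    exact Valuation.map_add_eq_of_lt_left _ h2
  have hdet : Valued.v (w : Matrix (Fin 2) (Fin 2) k).det = 1 := val_det_eq_one_of_inU355 hwU
  have hWx : ∀ i j, Valued.v (((x⁻¹ * w * x : GL (Fin 2) k) : Matrix (Fin 2) (Fin 2) k) i j)
      ≤ WithZero.exp (((2 * B + Az + A2 : ℕ) : ℕ) : ℤ) := by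
    intro i j
    have h1 := congrFun (congrFun hkeyM i) j
    rw [Matrix.smul_apply, Matrix.sub_apply, Matrix.smul_apply, Matrix.smul_apply, smul_eq_mul,
      smul_eq_mul, smul_eq_mul] at h1
    -- `t * Wx i j = z⁻¹ * (G Gs) i j + d * 1 i j`
    have h2 : (w : Matrix (Fin 2) (Fin 2) k).trace
        * ((x⁻¹ * w * x : GL (Fin 2) k) : Matrix (Fin 2) (Fin 2) k) i j
        = z⁻¹ * ((x⁻¹ * (w * δ₀) * glAut s x *
            glAut s (x⁻¹ * (w * δ₀) * glAut s x) : GL (Fin 2) k) :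
              Matrix (Fin 2) (Fin 2) k) i j
          + (w : Matrix (Fin 2) (Fin 2) k).det * (1 : Matrix (Fin 2) (Fin 2) k) i j := by
      rw [h1]
      field_simp
      ring
    have h3 : Valued.v (z⁻¹ * ((x⁻¹ * (w * δ₀) * glAut s x *
            glAut s (x⁻¹ * (w * δ₀) * glAut s x) : GL (Fin 2) k) :
              Matrix (Fin 2) (Fin 2) k) i j
          + (w : Matrix (Fin 2) (Fin 2) k).det * (1 : Matrix (Fin 2) (Fin 2) k) i j)
        ≤ WithZero.exp (((2 * B + Az : ℕ) : ℕ) : ℤ) := by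
      refine (Valuation.map_add _ _ _).trans (max_le ?_ ?_)
      · rw [map_mul, map_inv₀]
        have hzi : (Valued.v z)⁻¹ ≤ WithZero.exp ((Az : ℕ) : ℤ) := by
          have := inv_anti₀ WithZero.exp_pos hAz
          simpa using this
        calc (Valued.v z)⁻¹ * Valued.v (((x⁻¹ * (w * δ₀) * glAut s x *
                glAut s (x⁻¹ * (w * δ₀) * glAut s x) : GL (Fin 2) k) :
                  Matrix (Fin 2) (Fin 2) k) i j)
            ≤ WithZero.exp ((Az : ℕ) : ℤ)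
                * (WithZero.exp ((B : ℕ) : ℤ) * WithZero.exp ((B : ℕ) : ℤ)) :=
              mul_le_mul' hzi (hGG i j)
          _ = WithZero.exp (((2 * B + Az : ℕ) : ℕ) : ℤ) := by
              rw [← WithZero.exp_add, ← WithZero.exp_add]
              congr 1
              push_cast
              ring
      · rw [map_mul, hdet, one_mul]
        refine (val_one_apply_le355 i j).trans ?_
        rw [← WithZero.exp_zero, WithZero.exp_le_exp]
        exact Int.natCast_nonneg _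
    rw [← h2, map_mul, htr] at h3
    have h2i : (Valued.v (2 : k))⁻¹ ≤ WithZero.exp ((A2 : ℕ) : ℤ) := by
      have := inv_anti₀ WithZero.exp_pos hA2
      simpa using this
    calc Valued.v (((x⁻¹ * w * x : GL (Fin 2) k) : Matrix (Fin 2) (Fin 2) k) i j)
        = (Valued.v (2 : k))⁻¹ * (Valued.v (2 : k)
            * Valued.v (((x⁻¹ * w * x : GL (Fin 2) k) : Matrix (Fin 2) (Fin 2) k) i j)) := by
          rw [← mul_assoc, inv_mul_cancel₀ hv2, one_mul]
      _ ≤ WithZero.exp ((A2 : ℕ) : ℤ) * WithZero.exp (((2 * B + Az : ℕ) : ℕ) : ℤ) :=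
          mul_le_mul' h2i h3
      _ = WithZero.exp (((2 * B + Az + A2 : ℕ) : ℕ) : ℤ) := by
          rw [← WithZero.exp_add]
          congr 1
          push_cast
          ring
  -- (d) the entries and the determinant of `g₀ = w_x⁻¹ g`
  have hWxd : Valued.v ((x⁻¹ * w * x : GL (Fin 2) k) : Matrix (Fin 2) (Fin 2) k).det = 1 := by
    rw [det_conj355, hdet]
  have hWxi : ∀ i j, Valued.v ((((x⁻¹ * w * x)⁻¹ : GL (Fin 2) k) :
      Matrix (Fin 2) (Fin 2) k) i j)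
      ≤ WithZero.exp (2 * (((2 * B + Az + A2 : ℕ) : ℕ) : ℤ)) := by
    intro i j
    refine val_inv_entry_le162 (x⁻¹ * w * x) (entryMax_le355 _ hWx) ?_ i j
    rw [hWxd, ← WithZero.exp_zero, WithZero.exp_le_exp]
    have := Int.natCast_nonneg (2 * B + Az + A2)
    omega
  have hg₀ : x⁻¹ * δ₀ * glAut s x
      = (x⁻¹ * w * x)⁻¹ * (x⁻¹ * (w * δ₀) * glAut s x) := by group
  have hE : entryMax (x⁻¹ * δ₀ * glAut s x)
      ≤ WithZero.exp (((2 * (2 * B + Az + A2) + B : ℕ) : ℕ) : ℤ) := by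
    refine entryMax_le355 _ (fun i j => ?_)
    rw [hg₀, Units.val_mul]
    have h1 := val_mul_entry_le162 _ _ hWxi hGe i j
    refine h1.trans (le_of_eq ?_)
    have e : (2 * (((2 * B + Az + A2 : ℕ) : ℕ) : ℤ)) + ((B : ℕ) : ℤ)
        = (((2 * (2 * B + Az + A2) + B : ℕ) : ℕ) : ℤ) := by
      push_cast
      ring
    rw [← WithZero.exp_add, e]
  have hD : WithZero.exp (-((((2 * (2 * B + Az + A2) + B : ℕ) : ℕ) : ℤ)))
      ≤ Valued.v ((x⁻¹ * δ₀ * glAut s x : GL (Fin 2) k) : Matrix (Fin 2) (Fin 2) k).det := by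
    have h1 : Valued.v ((x⁻¹ * δ₀ * glAut s x : GL (Fin 2) k) :
        Matrix (Fin 2) (Fin 2) k).det
        = Valued.v ((x⁻¹ * (w * δ₀) * glAut s x : GL (Fin 2) k) :
          Matrix (Fin 2) (Fin 2) k).det := by
      have h2 : x⁻¹ * (w * δ₀) * glAut s x = (x⁻¹ * w * x) * (x⁻¹ * δ₀ * glAut s x) := by group
      rw [h2, Units.val_mul (x⁻¹ * w * x), Matrix.det_mul, map_mul, hWxd, one_mul]
    rw [h1]
    refine le_trans ?_ hGd
    rw [WithZero.exp_le_exp]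
    push_cast
    omega
  exact hF'' _ hE hD

/-- **T6.18i.6g.** -/
theorem shiftBackC355 : ShiftBackC385 := by
  intro k k' _ _ _ _ q e i s hD z hz _ n δ₀ hδ F
  have hs2 : ∀ y : k', s (s y) = y := fun y => hD.ext.cyc.order y
  exact shiftBack_core355 hD.hk' s hs2 hD.ext.val_s (i z) ((map_ne_zero i).2 hz)
    (hD.ext.cyc.fix_i z) n δ₀ hδ F

end Fermat.Agent.LT.T6.H355

end
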